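/-
A3 / S19 — WP-W6alg (helper495), part 2: corank-one systems (Cramer) and full-rank pivots.

* `cramerVec M` for `M : Matrix (Fin r) (Fin (r+1)) R`: the vector of signed maximal minors.
  `mulVec_cramerVec : M *ᵥ cramerVec M = 0` and the CROSS IDENTITY
  `cramerVec_cross : M *ᵥ x = 0 → cramerVec M k * x j = x k * cramerVec M j`
  hold over EVERY commutative ring (no rank hypothesis): this is the shape `Q · b = P` of the
  local criterion, valid at all points of a family, including those where the minors vanish.
  If one minor is a unit, the kernel is free of rank one on `cramerVec M`.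
* `constRankAt_of_bijective_left/right`: a unit pivot using all rows (all columns) is
  automatically of constant rank; over a local ring such a pivot exists as soon as the matrix is
  surjective (injective) modulo the maximal ideal (`exists_constRankAt_of_residue_rank_eq_card`).
* adjugate forms of the echelon matrices (`det_smul_echelon`, `det_smul_coechelon`): entries are
  polynomials in the entries of `A` divided by the pivot minor.
-/
import Fermat.Agent.S19.H495.Saturated
import Mathlib.LinearAlgebra.Matrix.Adjugate

set_option linter.unusedSectionVars false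
set_option linter.unusedSimpArgs false
set_option linter.style.longLine false
set_option linter.style.haveILetI false

namespace Fermat.Agent.S19.H495

open Matrix

section Cramer

variable {R : Type*} [CommRing R] {r : ℕ}

/-- The vector of signed maximal minors of an `r × (r+1)` matrix. -/
noncomputable def cramerVec (M : Matrix (Fin r) (Fin (r + 1)) R) : Fin (r + 1) → R :=
  fun j => (-1) ^ (j : ℕ) * (M.submatrix id j.succAbove).det

/-- The square matrix with first row `v` followed by the rows of `M`. -/
def consRow (v : Fin (r + 1) → R) (M : Matrix (Fin r) (Fin (r + 1)) R) :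
    Matrix (Fin (r + 1)) (Fin (r + 1)) R :=
  Matrix.of (Fin.cons v M : Fin (r + 1) → Fin (r + 1) → R)

@[simp] theorem consRow_zero (v : Fin (r + 1) → R) (M : Matrix (Fin r) (Fin (r + 1)) R)
    (j : Fin (r + 1)) : consRow v M 0 j = v j := rfl

@[simp] theorem consRow_succ (v : Fin (r + 1) → R) (M : Matrix (Fin r) (Fin (r + 1)) R)
    (i : Fin r) (j : Fin (r + 1)) : consRow v M i.succ j = M i j := rfl

theorem consRow_submatrix_succ (v : Fin (r + 1) → R) (M : Matrix (Fin r) (Fin (r + 1)) R)
    (j : Fin (r + 1)) :
    (consRow v M).submatrix Fin.succ j.succAbove = M.submatrix id j.succAbove := rfl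

/-- Laplace expansion along the first row. -/
theorem det_consRow (v : Fin (r + 1) → R) (M : Matrix (Fin r) (Fin (r + 1)) R) :
    (consRow v M).det = ∑ j, v j * cramerVec M j := by
  rw [Matrix.det_succ_row_zero]
  refine Finset.sum_congr rfl fun j _ => ?_
  rw [consRow_submatrix_succ, consRow_zero, cramerVec]
  ring

/-- The vector of signed maximal minors lies in the kernel. -/
theorem mulVec_cramerVec (M : Matrix (Fin r) (Fin (r + 1)) R) : M *ᵥ cramerVec M = 0 := by
  funext i
  have h1 := det_consRow (M i) M
  have h2 : (consRow (M i) M).det = 0 :=
    Matrix.det_zero_of_row_eq (i := 0) (j := i.succ) (Fin.succ_ne_zero i).symm rfl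
  rw [h2] at h1
  simp only [Matrix.mulVec, dotProduct, Pi.zero_apply]
  exact h1.symm

theorem adjugate_consRow_apply_zero (v : Fin (r + 1) → R) (M : Matrix (Fin r) (Fin (r + 1)) R)
    (j : Fin (r + 1)) : adjugate (consRow v M) j 0 = cramerVec M j := by
  rw [Matrix.adjugate_fin_succ_eq_det_submatrix]
  have : (consRow v M).submatrix (Fin.succAbove 0) j.succAbove = M.submatrix id j.succAbove := by
    ext a b
    simp [Fin.succAbove_zero]
  rw [this, cramerVec]
  simp

theorem consRow_mulVec (v : Fin (r + 1) → R) (M : Matrix (Fin r) (Fin (r + 1)) R)
    (x : Fin (r + 1) → R) :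
    consRow v M *ᵥ x = Fin.cons (v ⬝ᵥ x) (M *ᵥ x) := by
  funext i
  refine Fin.cases ?_ (fun i => ?_) i
  · rfl
  · rfl

/-- **Cross identity** for a corank-one system, over any commutative ring: every solution is
"proportional" to the vector of signed maximal minors. -/
theorem cramerVec_cross (M : Matrix (Fin r) (Fin (r + 1)) R) (x : Fin (r + 1) → R)
    (hx : M *ᵥ x = 0) (j k : Fin (r + 1)) :
    cramerVec M k * x j = x k * cramerVec M j := by
  set N := consRow (Pi.single k 1) M with hN
  have hdet : N.det = cramerVec M k := by
    rw [hN, det_consRow]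
    simp [Pi.single_apply]
  have hNx : N *ᵥ x = Pi.single 0 (x k) := by
    rw [hN, consRow_mulVec, hx]
    funext i
    refine Fin.cases ?_ (fun i => ?_) i
    · simp [dotProduct, Pi.single_apply]
    · simp [Fin.succ_ne_zero]
  have h1 : adjugate N *ᵥ (N *ᵥ x) = N.det • x := by
    rw [Matrix.mulVec_mulVec, Matrix.adjugate_mul, Matrix.smul_mulVec, Matrix.one_mulVec]
  rw [hNx, hdet] at h1
  have h2 := congrFun h1 j
  simp only [Matrix.mulVec, dotProduct, Pi.single_apply, mul_ite, mul_zero, Finset.sum_ite_eq',
    Finset.mem_univ, if_true, Pi.smul_apply, smul_eq_mul] at h2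
  rw [← h2, hN, adjugate_consRow_apply_zero]
  ring

/-- If one maximal minor is a unit, every solution is a multiple of the Cramer vector. -/
theorem eq_smul_cramerVec (M : Matrix (Fin r) (Fin (r + 1)) R) (x : Fin (r + 1) → R)
    (hx : M *ᵥ x = 0) (k : Fin (r + 1)) (u : R) (hu : u * cramerVec M k = 1) :
    x = (u * x k) • cramerVec M := by
  funext j
  have h := cramerVec_cross M x hx j k
  simp only [Pi.smul_apply, smul_eq_mul]
  calc x j = (u * cramerVec M k) * x j := by rw [hu, one_mul]
    _ = u * (cramerVec M k * x j) := by ring
    _ = u * (x k * cramerVec M j) := by rw [h]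
    _ = u * x k * cramerVec M j := by ring

/-- If one maximal minor is a unit, the kernel is spanned by the Cramer vector. -/
theorem ker_eq_span_cramerVec (M : Matrix (Fin r) (Fin (r + 1)) R) (k : Fin (r + 1))
    (hk : IsUnit (cramerVec M k)) :
    LinearMap.ker M.mulVecLin = Submodule.span R {cramerVec M} := by
  obtain ⟨u, hu⟩ := hk.exists_left_inv
  apply le_antisymm
  · intro x hx
    rw [LinearMap.mem_ker, Matrix.mulVecLin_apply] at hx
    rw [eq_smul_cramerVec M x hx k u hu]
    exact Submodule.smul_mem _ _ (Submodule.subset_span rfl)
  · rw [Submodule.span_le, Set.singleton_subset_iff]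
    show cramerVec M ∈ LinearMap.ker M.mulVecLin
    rw [LinearMap.mem_ker, Matrix.mulVecLin_apply, mulVec_cramerVec]

end Cramer

section FullRank

variable {R : Type*} [CommRing R]
variable {m n ι : Type*} [Fintype m] [Fintype n] [Fintype ι] [DecidableEq m] [DecidableEq n]
  [DecidableEq ι]

/-- A unit pivot using all the rows is of constant rank. -/
theorem constRankAt_of_surjective_left (A : Matrix m n R) (p : ι → m) (q : ι → n)
    (hp : Function.Surjective p) (hu : IsUnit (A.submatrix p q).det) : ConstRankAt A p q := by
  refine ⟨hu, fun i j => ?_⟩
  obtain ⟨a, rfl⟩ := hp i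
  unfold borderedMinor
  refine Matrix.det_zero_of_row_eq (i := Sum.inl a) (j := Sum.inr ()) (by simp) ?_
  funext b
  rfl

/-- A unit pivot using all the columns is of constant rank. -/
theorem constRankAt_of_surjective_right (A : Matrix m n R) (p : ι → m) (q : ι → n)
    (hq : Function.Surjective q) (hu : IsUnit (A.submatrix p q).det) : ConstRankAt A p q := by
  refine ⟨hu, fun i j => ?_⟩
  obtain ⟨a, rfl⟩ := hq j
  unfold borderedMinor
  refine Matrix.det_zero_of_column_eq (i := Sum.inl a) (j := Sum.inr ()) (by simp) ?_
  intro b
  rfl

/-- Adjugate form of the row echelon matrix: its entries are polynomials in the entries of `A`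
divided by the pivot minor. -/
theorem det_smul_echelon (A : Matrix m n R) (p : ι → m) (q : ι → n)
    (h : IsUnit (A.submatrix p q).det) :
    (A.submatrix p q).det • echelon A p q = adjugate (A.submatrix p q) * A.submatrix p id := by
  have : (A.submatrix p q).det * ((h.unit⁻¹ : Rˣ) : R) = 1 := by
    have := h.unit.mul_inv
    rwa [IsUnit.unit_spec] at this
  rw [echelon, Matrix.nonsing_inv_apply _ h, Matrix.smul_mul, smul_smul, this, one_smul]

/-- Adjugate form of the column echelon matrix. -/
theorem det_smul_coechelon (A : Matrix m n R) (p : ι → m) (q : ι → n)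
    (h : IsUnit (A.submatrix p q).det) :
    (A.submatrix p q).det • coechelon A p q = A.submatrix id q * adjugate (A.submatrix p q) := by
  have : (A.submatrix p q).det * ((h.unit⁻¹ : Rˣ) : R) = 1 := by
    have := h.unit.mul_inv
    rwa [IsUnit.unit_spec] at this
  rw [coechelon, Matrix.nonsing_inv_apply _ h, Matrix.mul_smul, smul_smul, this, one_smul]

end FullRank

section LocalFullRank

variable {O : Type*} [CommRing O] [IsLocalRing O]
variable {m n : Type*} [Fintype m] [Fintype n] [DecidableEq m] [DecidableEq n]

/-- Over a local ring, a matrix which is surjective modulo the maximal ideal (residual rank =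
number of rows) has constant rank at a pivot using all rows: hence it is split surjective and its
kernel is a free direct summand of rank `#columns − #rows`, compatibly with every base change.
(No domain hypothesis: `O` may be a finite flat local algebra, a complete local ring, ...) -/
theorem exists_constRankAt_of_residue_rank_eq_card_rows (A : Matrix m n O)
    (h : (A.map (IsLocalRing.residue O)).rank = Fintype.card m) :
    ∃ (p : Fin (Fintype.card m) → m) (q : Fin (Fintype.card m) → n),
      Function.Bijective p ∧ ConstRankAt A p q := by
  obtain ⟨p, q, hpq⟩ := exists_det_submatrix_ne_zero (A.map (IsLocalRing.residue O))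
  have key : ∀ (r : ℕ) (_ : r = Fintype.card m) (p : Fin r → m) (q : Fin r → n),
      ((A.map (IsLocalRing.residue O)).submatrix p q).det ≠ 0 →
      ∃ (p' : Fin (Fintype.card m) → m) (q' : Fin (Fintype.card m) → n),
        Function.Bijective p' ∧ ConstRankAt A p' q' := by
    intro r hr p q hpq
    subst hr
    have hinj : Function.Injective p :=
      injective_of_isUnit_det_left (A := A.map (IsLocalRing.residue O)) (q := q) hpq.isUnit
    have hbij : Function.Bijective p :=
      (Fintype.bijective_iff_injective_and_card p).mpr ⟨hinj, by simp⟩
    refine ⟨p, q, hbij, constRankAt_of_surjective_left A p q hbij.surjective ?_⟩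
    rw [det_submatrix_map] at hpq
    exact (IsLocalRing.residue_ne_zero_iff_isUnit _).mp hpq
  exact key _ h p q hpq

/-- Over a local ring, a matrix which is injective modulo the maximal ideal (residual rank =
number of columns) has constant rank at a pivot using all columns: hence it is split injective
and its image is a free direct summand, compatibly with every base change. -/
theorem exists_constRankAt_of_residue_rank_eq_card_cols (A : Matrix m n O)
    (h : (A.map (IsLocalRing.residue O)).rank = Fintype.card n) :
    ∃ (p : Fin (Fintype.card n) → m) (q : Fin (Fintype.card n) → n),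
      Function.Bijective q ∧ ConstRankAt A p q := by
  obtain ⟨p, q, hpq⟩ := exists_det_submatrix_ne_zero (A.map (IsLocalRing.residue O))
  have key : ∀ (r : ℕ) (_ : r = Fintype.card n) (p : Fin r → m) (q : Fin r → n),
      ((A.map (IsLocalRing.residue O)).submatrix p q).det ≠ 0 →
      ∃ (p' : Fin (Fintype.card n) → m) (q' : Fin (Fintype.card n) → n),
        Function.Bijective q' ∧ ConstRankAt A p' q' := by
    intro r hr p q hpq
    subst hr
    have hinj : Function.Injective q :=
      injective_of_isUnit_det_right (A := A.map (IsLocalRing.residue O)) (p := p) hpq.isUnit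
    have hbij : Function.Bijective q :=
      (Fintype.bijective_iff_injective_and_card q).mpr ⟨hinj, by simp⟩
    refine ⟨p, q, hbij, constRankAt_of_surjective_right A p q hbij.surjective ?_⟩
    rw [det_submatrix_map] at hpq
    exact (IsLocalRing.residue_ne_zero_iff_isUnit _).mp hpq
  exact key _ h p q hpq

end LocalFullRank

end Fermat.Agent.S19.H495
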